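import Fermat.Agent.S36.Mut.Interface

/-!
# S36 / Mut, MUT-ABS : abstract mutual integrality for three levels (`Stmt_MutAbs`)
-/

set_option autoImplicit false

noncomputable section

namespace Fermat.Agent.S36.Mut

open Fermat.Agent Fermat.Agent.S36

section Pull

variable {F L : Type*} [Field F] [Field L] (ι : F →+* L)

theorem MutAbs_rel4 {t J Ja : F} (h : Rel4 (ι t) (ι J) (ι Ja)) : Rel4 t J Ja := by
  obtain ⟨h1, h2⟩ := h
  refine ⟨ι.injective ?_, ι.injective ?_⟩
  · simp only [map_mul, map_pow, map_add, map_ofNat]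
    exact h1
  · simp only [map_mul, map_pow, map_add, map_ofNat]
    exact h2

theorem MutAbs_rel9 {t J Ja : F} (h : Rel9 (ι t) (ι J) (ι Ja)) : Rel9 t J Ja := by
  obtain ⟨h1, h2⟩ := h
  refine ⟨ι.injective ?_, ι.injective ?_⟩
  · simp only [map_mul, map_pow, map_add, map_ofNat]
    exact h1
  · simp only [map_mul, map_pow, map_add, map_ofNat]
    exact h2

theorem MutAbs_rel {a : ℕ} {t J Ja : F} (h : Rel a (ι t) (ι J) (ι Ja)) : Rel a t J Ja := by
  rcases h with ⟨ha, h⟩ | ⟨ha, h⟩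
  · exact Or.inl ⟨ha, MutAbs_rel4 ι h⟩
  · exact Or.inr ⟨ha, MutAbs_rel9 ι h⟩

theorem MutAbs_phiZ (r : ℕ) (c : ℕ → ℕ → ℤ) (Z W : F) :
    phiZ r c (ι Z)⁻¹ (ι W)⁻¹ = ι (phiZ r c Z⁻¹ W⁻¹) := by
  rw [phiZ, phiZ, map_sum]
  refine Finset.sum_congr rfl fun a _ => ?_
  rw [map_sum]
  refine Finset.sum_congr rfl fun b _ => ?_
  rw [map_mul, map_mul, map_pow, map_pow, map_inv₀, map_inv₀, map_intCast]

theorem MutAbs_phiZ_pull {r : ℕ} {c : ℕ → ℕ → ℤ} {Z W : F}
    (h : phiZ r c (ι Z)⁻¹ (ι W)⁻¹ = 0) : phiZ r c Z⁻¹ W⁻¹ = 0 := by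
  rw [MutAbs_phiZ] at h
  exact (map_eq_zero ι).1 h

end Pull

section Same

variable {F : Type*} [Field F] {O : ValuationSubring F}

theorem MutAbs_same_refl (x : F) : SameType O x x := ⟨Iff.rfl, Iff.rfl⟩

theorem MutAbs_same_symm {x y : F} (h : SameType O x y) : SameType O y x := ⟨h.1.symm, h.2.symm⟩

theorem MutAbs_same_trans {x y z : F} (h : SameType O x y) (h' : SameType O y z) :
    SameType O x z := ⟨h.1.trans h'.1, h.2.trans h'.2⟩

end Same

/-- `t ≠ 0`. -/
theorem MutAbs_ne_zero {F : Type*} [Field F] {a : ℕ} {t J Ja : F} (ha : (a : F) ≠ 0)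
    (h : Rel a t J Ja) : t ≠ 0 := by
  rintro rfl
  rcases h with ⟨rfl, h, -⟩ | ⟨rfl, h, -⟩
  · have h4 : (4 : F) ≠ 0 := by exact_mod_cast ha
    have e : (4 : F) ^ 18 = 0 := by
      have : (0 : F) = (0 ^ 2 + 256 * 0 + 4096) ^ 3 := by rw [← h]; ring
      rw [this]; norm_num
    exact pow_ne_zero _ h4 e
  · have h9 : (9 : F) ≠ 0 := by exact_mod_cast ha
    have e : (9 : F) ^ 15 = 0 := by
      have : (0 : F) = ((0 + 9) * (0 ^ 3 + 243 * 0 ^ 2 + 2187 * 0 + 6561)) ^ 3 := by rw [← h]; ring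
      rw [this]; norm_num
    exact pow_ne_zero _ h9 e

/-- a unit of `A₀` has valuation one. -/
theorem MutAbs_val_unit {A₀ F : Type*} [CommRing A₀] [Field F] [Algebra A₀ F]
    {O : ValuationSubring F} (hO : ∀ a : A₀, algebraMap A₀ F a ∈ O) {u : A₀} (hu : IsUnit u) :
    O.valuation (algebraMap A₀ F u) = 1 := by
  obtain ⟨b, hb⟩ := hu.exists_right_inv
  have h1 : O.valuation (algebraMap A₀ F u) ≤ 1 := (O.valuation_le_one_iff _).2 (hO u)
  have h2 : O.valuation (algebraMap A₀ F b) ≤ 1 := (O.valuation_le_one_iff _).2 (hO b)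
  have h3 : O.valuation (algebraMap A₀ F u) * O.valuation (algebraMap A₀ F b) = 1 := by
    rw [← map_mul, ← map_mul, hb, map_one, map_one]
  refine le_antisymm h1 ?_
  rw [← h3]
  exact mul_le_of_le_one_right' h2

theorem mutAbs (h4 : Stmt_Type4) (h9 : Stmt_Type9) (hV : Stmt_MutV) (hI : Stmt_MutInt) :
    Stmt_MutAbs := by
  intro A₀ F L _ _ _ _ ι a r c T J Ja ha hr hra hu hsh hRel hPhi
  have hRel' : ∀ i, Rel a (T i) (J i) (Ja i) := fun i => MutAbs_rel ι (hRel i)
  have haF : (a : F) ≠ 0 := by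
    have := (hu.map (algebraMap A₀ F)).ne_zero
    rwa [map_natCast] at this
  have hT0 : ∀ i, T i ≠ 0 := fun i => MutAbs_ne_zero haF (hRel' i)
  have ha2 : 2 ≤ a := by rcases ha with rfl | rfl <;> norm_num
  have hsame : ∀ O : ValuationSubring F, (∀ x : A₀, algebraMap A₀ F x ∈ O) →
      ∀ i j, SameType O (T i) (T j) := by
    intro O hO
    have hva : O.valuation (a : F) = 1 := by
      have := MutAbs_val_unit hO hu
      rwa [map_natCast] at this
    have hTy : ∀ i, TypeOut a O (T i) (J i) (Ja i) := by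
      intro i
      rcases hRel' i with ⟨rfl, h⟩ | ⟨rfl, h⟩
      · refine h4 F O _ _ _ ?_ h
        have e : O.valuation (2 : F) ^ 2 = 1 := by
          rw [← map_pow, ← hva]; norm_num
        exact (pow_eq_one_iff_of_nonneg zero_le two_ne_zero).1 e
      · refine h9 F O _ _ _ ?_ h
        have e : O.valuation (3 : F) ^ 2 = 1 := by
          rw [← map_pow, ← hva]; norm_num
        exact (pow_eq_one_iff_of_nonneg zero_le two_ne_zero).1 e
    have hstep : ∀ i j : Fin 3, (i : ℕ) + 1 = j → SameType O (T i) (T j) := by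
      intro i j hij
      obtain ⟨p1, p2, p3, p4⟩ := hPhi i j hij
      exact hV F O a r c (T i) (J i) (Ja i) (T j) (J j) (Ja j) ha2 hr hra hsh (hTy i) (hTy j)
        (MutAbs_phiZ_pull ι p1) (MutAbs_phiZ_pull ι p2) (MutAbs_phiZ_pull ι p3)
        (MutAbs_phiZ_pull ι p4)
    have h01 : SameType O (T 0) (T 1) := hstep 0 1 rfl
    have h12 : SameType O (T 1) (T 2) := hstep 1 2 rfl
    have h02 := MutAbs_same_trans h01 h12
    intro i j
    fin_cases i <;> fin_cases j
    · exact MutAbs_same_refl _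
    · exact h01
    · exact h02
    · exact MutAbs_same_symm h01
    · exact MutAbs_same_refl _
    · exact h12
    · exact MutAbs_same_symm h02
    · exact MutAbs_same_symm h12
    · exact MutAbs_same_refl _
  intro i j
  exact hI A₀ F (T i) (T j) (hT0 i) (hT0 j) fun O hO => hsame O hO i j

end Fermat.Agent.S36.Mut

end
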