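import Fermat.Agent.S36.Mut.Interface

/-!
# S36 / Mut : mutually integral coordinates have the same charts
-/

set_option autoImplicit false

namespace Fermat.Agent.S36.Mut

open Fermat.Agent.KL

/-- transitivity of integrality for two rings mapping to `F` (no algebra structure between them). -/
theorem isIntegral_of_forall {R₁ R₂ F : Type*} [CommRing R₁] [CommRing R₂] [CommRing F]
    [Algebra R₁ F] [Algebra R₂ F] (h : ∀ b : R₂, IsIntegral R₁ (algebraMap R₂ F b)) {z : F}
    (hz : IsIntegral R₂ z) : IsIntegral R₁ z := by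
  let f : R₂ →+* integralClosure R₁ F := (algebraMap R₂ F).codRestrict (integralClosure R₁ F) h
  have hf : (algebraMap (integralClosure R₁ F) F).comp f = algebraMap R₂ F := rfl
  obtain ⟨p, hp, he⟩ := hz
  have hz' : IsIntegral (integralClosure R₁ F) z :=
    ⟨p.map f, hp.map f, by rw [Polynomial.eval₂_map, hf]; exact he⟩
  exact isIntegral_trans z hz'

/-- every element of `A₀[y]` is integral over `A₀[x]` if `y` is. -/
theorem isIntegral_adjoin_of {A₀ F : Type*} [CommRing A₀] [CommRing F] [Algebra A₀ F] {x y : F}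
    (h : IsIntegral (Algebra.adjoin A₀ {x}) y) (b : Algebra.adjoin A₀ {y}) :
    IsIntegral (Algebra.adjoin A₀ {x}) (algebraMap (Algebra.adjoin A₀ {y}) F b) := by
  obtain ⟨b, hb⟩ := b
  show IsIntegral (Algebra.adjoin A₀ {x}) b
  induction hb using Algebra.adjoin_induction with
  | mem z hz =>
    rw [Set.mem_singleton_iff] at hz
    rw [hz]; exact h
  | algebraMap a =>
    have : algebraMap A₀ F a = algebraMap (Algebra.adjoin A₀ {x}) F (algebraMap A₀ _ a) := rfl
    rw [this]
    exact isIntegral_algebraMap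
  | add u w _ _ hu hw => exact hu.add hw
  | mul u w _ _ hu hw => exact hu.mul hw

theorem isIntegral_iff_of_mutual {A₀ F : Type*} [CommRing A₀] [CommRing F] [Algebra A₀ F] {x y : F}
    (h₁ : IsIntegral (Algebra.adjoin A₀ {x}) y) (h₂ : IsIntegral (Algebra.adjoin A₀ {y}) x)
    (z : F) : IsIntegral (Algebra.adjoin A₀ {x}) z ↔ IsIntegral (Algebra.adjoin A₀ {y}) z :=
  ⟨fun hz => isIntegral_of_forall (R₁ := Algebra.adjoin A₀ {y}) (R₂ := Algebra.adjoin A₀ {x})
      (fun b => isIntegral_adjoin_of h₂ b) hz,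
    fun hz => isIntegral_of_forall (R₁ := Algebra.adjoin A₀ {x}) (R₂ := Algebra.adjoin A₀ {y})
      (fun b => isIntegral_adjoin_of h₁ b) hz⟩

/-- **the charts of mutually integral coordinates coincide** (as subsets of `F`). -/
theorem MutInt.chart_iff {A₀ F : Type} [CommRing A₀] [Field F] [Algebra A₀ F] {x y : F}
    (h : MutInt A₀ x y) (z : F) :
    (IsIntegral (PolyR A₀ x) z ↔ IsIntegral (PolyR A₀ y) z) ∧
      (IsIntegral (PolyR A₀ x⁻¹) z ↔ IsIntegral (PolyR A₀ y⁻¹) z) :=
  ⟨isIntegral_iff_of_mutual h.1 h.2.1 z, isIntegral_iff_of_mutual h.2.2.1 h.2.2.2 z⟩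

end Fermat.Agent.S36.Mut
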