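import Fermat.Agent.S36.Mut.Interface

/-!
# S36 / Mut / Crit : the valuative criterion of integrality, and `SameType ⟹ MutInt`
-/

set_option autoImplicit false

namespace Fermat.Agent.S36.Mut

/-- **MUT-CRIT** the valuative criterion of integrality. -/
theorem crit : Stmt_Crit := by
  intro A₀ F _ _ _ x y h
  set s : Set F := Set.range (algebraMap A₀ F) ∪ {x} with hs
  have hy : y ∈ (⨅ V : {V : ValuationSubring F // s ⊆ V.toSubring}, V.1.toSubring) := by
    rw [Subring.mem_iInf]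
    rintro ⟨V, hV⟩
    have h1 : ∀ a : A₀, algebraMap A₀ F a ∈ V := fun a => hV (Or.inl ⟨a, rfl⟩)
    have h2 : x ∈ V := hV (Or.inr rfl)
    exact h V h1 h2
  rw [iInf_valuationSubring_superset] at hy
  have hy' : IsIntegral (Subring.closure s) y := hy
  have hle : Subring.closure s ≤ (Algebra.adjoin A₀ {x}).toSubring := by
    rw [Subring.closure_le]
    rintro z (⟨a, rfl⟩ | hz)
    · exact (Algebra.adjoin A₀ {x}).algebraMap_mem a
    · exact Algebra.subset_adjoin hz
  obtain ⟨p, hp, he⟩ := hy'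
  refine ⟨p.map (Subring.inclusion hle), hp.map _, ?_⟩
  rw [Polynomial.eval₂_map]
  exact he

theorem Crit_mem_iff {F : Type} [Field F] (O : ValuationSubring F) (x : F) :
    x ∈ O ↔ ¬ 1 < O.valuation x := by
  rw [← ValuationSubring.valuation_le_one_iff, not_lt]

theorem Crit_inv_mem_iff {F : Type} [Field F] (O : ValuationSubring F) {x : F}
    (hx : x ≠ 0) : x⁻¹ ∈ O ↔ ¬ O.valuation x < 1 := by
  rw [← ValuationSubring.valuation_le_one_iff, not_lt, map_inv₀]
  have h0 : 0 < O.valuation x := by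
    rw [zero_lt_iff]
    exact (Valuation.ne_zero_iff _).2 hx
  exact inv_le_one₀ h0

/-- **MUT-INT** from types to integrality. -/
theorem mutInt (h : Stmt_Crit) : Stmt_MutInt := by
  intro A₀ F _ _ _ x y hx hy hO
  refine ⟨h A₀ F x y ?_, h A₀ F y x ?_, h A₀ F x⁻¹ y⁻¹ ?_, h A₀ F y⁻¹ x⁻¹ ?_⟩
  · intro O hA hxO
    rw [Crit_mem_iff] at hxO ⊢
    exact fun h1 => hxO ((hO O hA).1.2 h1)
  · intro O hA hxO
    rw [Crit_mem_iff] at hxO ⊢
    exact fun h1 => hxO ((hO O hA).1.1 h1)
  · intro O hA hxO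
    rw [Crit_inv_mem_iff O hx] at hxO
    rw [Crit_inv_mem_iff O hy]
    exact fun h1 => hxO ((hO O hA).2.2 h1)
  · intro O hA hxO
    rw [Crit_inv_mem_iff O hy] at hxO
    rw [Crit_inv_mem_iff O hx]
    exact fun h1 => hxO ((hO O hA).2.1 h1)

end Fermat.Agent.S36.Mut

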