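import Fermat.Agent.S36.Mut.Interface
import Fermat.Agent.S36.Reg.Dich
import Fermat.Agent.S36.Reg.UU

/-!
# S36 / Mut : MUT-DICHV, the dichotomy of `Φ_r` for a valuation (from `Reg.dich`)
-/

set_option autoImplicit false

namespace Fermat.Agent.S36.Mut

open Fermat.Agent Fermat.Agent.S36

section Dict

variable {F : Type*} [Field F] (O : ValuationSubring F)

theorem DichV_val_eq_one {s : O} (hs : s ∉ IsLocalRing.maximalIdeal O) :
    O.valuation (algebraMap O F s) = 1 := by
  have h1 : IsUnit s := by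
    by_contra h
    exact hs ((IsLocalRing.mem_maximalIdeal s).2 h)
  exact (O.valuation_eq_one_iff s).1 h1

theorem DichV_val_lt_one {s : O} (hs : s ∈ IsLocalRing.maximalIdeal O) :
    O.valuation (algebraMap O F s) < 1 :=
  (O.valuation_lt_one_iff s).1 hs

theorem DichV_posAt_of_lt {z : F} (hz : O.valuation z < 1) :
    PosAt (IsLocalRing.maximalIdeal O) z := by
  have hmem : z ∈ O := (O.valuation_le_one_iff z).1 hz.le
  refine ⟨1, ?_, ⟨z, hmem⟩, ?_, ?_⟩
  · intro h
    exact (IsLocalRing.mem_maximalIdeal _).1 h isUnit_one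
  · exact (O.valuation_lt_one_iff ⟨z, hmem⟩).2 hz
  · rw [map_one, one_mul]
    rfl

theorem DichV_lt_of_posAt {z : F} (hz : PosAt (IsLocalRing.maximalIdeal O) z) :
    O.valuation z < 1 := by
  obtain ⟨s, hs, p, hp, h⟩ := hz
  have h1 := congrArg O.valuation h
  rw [map_mul, DichV_val_eq_one O hs, one_mul] at h1
  rw [h1]
  exact DichV_val_lt_one O hp

theorem DichV_eq_of_unitAt {z : F} (hz : UnitAt (IsLocalRing.maximalIdeal O) z) :
    O.valuation z = 1 := by
  obtain ⟨s, hs, p, hp, h⟩ := hz
  have h1 := congrArg O.valuation h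
  rw [map_mul, DichV_val_eq_one O hs, one_mul] at h1
  rw [h1]
  exact DichV_val_eq_one O hp

end Dict

theorem dichV : Stmt_DichV := by
  intro F _ O r c Z W hr hc hW0 hW hΦ
  have hc' : Reg.PhiShape r (fun a b => ((c a b : ℤ) : O)) :=
    { left := fun b hb => by simp only [hc.left b hb, Int.cast_zero]
      left_top := by simp only [hc.left_top, Int.cast_one]
      right := fun a ha => by simp only [hc.right a ha, Int.cast_zero]
      right_top := by simp only [hc.right_top, Int.cast_one]
      one_one := by simp only [hc.one_one, Int.cast_neg, Int.cast_one] }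
  have hΦ' : Reg.phiStar r (fun a b => ((c a b : ℤ) : O)) Z W = 0 := by
    rw [← hΦ]
    unfold Reg.phiStar phiZ
    refine Finset.sum_congr rfl fun a _ => Finset.sum_congr rfl fun b _ => ?_
    rw [map_intCast]
  obtain ⟨hZ0, hZ, h⟩ := Reg.dich Reg.uu O F (IsLocalRing.maximalIdeal O) r _ Z W
    inferInstance hr hc' hW0 (DichV_posAt_of_lt O hW) hΦ'
  refine ⟨hZ0, DichV_lt_of_posAt O hZ, ?_⟩
  rcases h with ⟨u, hu, h⟩ | ⟨u, hu, h⟩
  · left
    rw [h, map_mul, map_pow, DichV_eq_of_unitAt O hu, mul_one]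
  · right
    rw [h, map_mul, map_pow, DichV_eq_of_unitAt O hu, mul_one]

end Fermat.Agent.S36.Mut
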