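import Fermat.Agent.S36.Mut.Interface
import Fermat.Agent.S36.HM.Rel
import Fermat.Agent.S36.Base.Mu

/-!
# S36 / Mut : the concrete statement `Stmt_Mut` on `FE A N` (MUT-INST)
-/

set_option autoImplicit false

noncomputable section

namespace Fermat.Agent.S36.Mut

open Fermat.Agent Fermat.Agent.S36
open Fermat.Agent.S24 (Qbar)
open Fermat.Agent.S36.Base
open ModularCurve (qExpand)

section Series

variable (K : Type) [Field K]

/-- the relations at the bottom level. -/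
theorem Inst_rel0 {a : ℕ} (ha : a = 4 ∨ a = 9) : Rel a (HM.tq a K) (S28.jd K 1) (S28.jd K a) := by
  rcases ha with rfl | rfl
  · refine Or.inl ⟨rfl, ?_, ?_⟩
    · have : HM.tq 4 K = HM.tq4 K := by simp [HM.tq]
      rw [this]; exact HM.r4_j1 K
    · have : HM.tq 4 K = HM.tq4 K := by simp [HM.tq]
      rw [this]; exact HM.r4_j4 K
  · refine Or.inr ⟨rfl, ?_, ?_⟩
    · have : HM.tq 9 K = HM.tq9 K := by simp [HM.tq]
      rw [this]; exact HM.r9_j1 K
    · have : HM.tq 9 K = HM.tq9 K := by simp [HM.tq]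
      rw [this]; exact HM.r9_j9 K

/-- ring homomorphisms preserve the relations. -/
theorem Inst_rel_map {F L : Type*} [Field F] [Field L] (f : F →+* L) {a : ℕ} {t J Ja : F}
    (h : Rel a t J Ja) : Rel a (f t) (f J) (f Ja) := by
  rcases h with ⟨ha, h1, h2⟩ | ⟨ha, h1, h2⟩
  · refine Or.inl ⟨ha, ?_, ?_⟩
    · have := congrArg f h1
      simpa only [map_mul, map_pow, map_add, map_ofNat] using this
    · have := congrArg f h2
      simpa only [map_mul, map_pow, map_add, map_ofNat] using this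
  · refine Or.inr ⟨ha, ?_, ?_⟩
    · have := congrArg f h1
      simpa only [map_mul, map_pow, map_add, map_ofNat] using this
    · have := congrArg f h2
      simpa only [map_mul, map_pow, map_add, map_ofNat] using this

theorem Inst_qExpand_jd (r : ℕ) [NeZero r] {d : ℕ} (hd : d ≠ 0) :
    qExpand K r (S28.jd K d) = S28.jd K (r * d) := by
  rw [← S28.Vq_eq, HM.Vq_jd K (NeZero.ne r) hd]

/-- one step `q ↦ q ^ r`. -/
theorem Inst_rel_step (r : ℕ) [NeZero r] {a d e : ℕ} (hd : d ≠ 0) (he : e ≠ 0)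
    {t : LaurentSeries K} (h : Rel a t (S28.jd K d) (S28.jd K e)) :
    Rel a (qExpand K r t) (S28.jd K (r * d)) (S28.jd K (r * e)) := by
  have := Inst_rel_map (qExpand K r) h
  rwa [Inst_qExpand_jd K r hd, Inst_qExpand_jd K r he] at this

/-- the three levels. -/
theorem Inst_rel_all (r : ℕ) [NeZero r] {a : ℕ} (ha : a = 4 ∨ a = 9) (t : Fin 3 → LaurentSeries K)
    (h0 : t 0 = HM.tq a K) (h1 : t 1 = qExpand K r (t 0)) (h2 : t 2 = qExpand K r (t 1)) :
    ∀ i : Fin 3, Rel a (t i) (S28.jd K (r ^ (i : ℕ))) (S28.jd K (a * r ^ (i : ℕ))) := by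
  have hr : r ≠ 0 := NeZero.ne r
  have ha0 : a ≠ 0 := by rcases ha with rfl | rfl <;> norm_num
  have e0 : Rel a (t 0) (S28.jd K (r ^ 0)) (S28.jd K (a * r ^ 0)) := by
    rw [h0, pow_zero, mul_one]; exact Inst_rel0 K ha
  have e1 : Rel a (t 1) (S28.jd K (r ^ 1)) (S28.jd K (a * r ^ 1)) := by
    have := Inst_rel_step K r (pow_ne_zero 0 hr) (mul_ne_zero ha0 (pow_ne_zero 0 hr)) e0
    rw [h1]
    convert this using 2 <;> ring
  have e2 : Rel a (t 2) (S28.jd K (r ^ 2)) (S28.jd K (a * r ^ 2)) := by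
    have := Inst_rel_step K r (pow_ne_zero 1 hr) (mul_ne_zero ha0 (pow_ne_zero 1 hr)) e1
    rw [h2]
    convert this using 2 <;> ring
  intro i
  fin_cases i
  · exact e0
  · exact e1
  · exact e2

end Series

theorem stmt_Mut (hAbs : Stmt_MutAbs) (hPhi : Phi.Stmt_Phi) : Stmt_Mut := by
  intro A a r N _ _ hr hA ha hra hN T h0 h1 h2
  obtain ⟨c, hc, hrel⟩ := hPhi r hr
  have ha0 : a ≠ 0 := by rcases ha with rfl | rfl <;> norm_num
  have hunit : IsUnit ((a : ℕ) : AE A) := (stmt_Mu r A hr hA a ha0 hra).1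
  have hdJa : ∀ i : Fin 3, a * r ^ (i : ℕ) ∣ N := fun i =>
    (Nat.mul_dvd_mul_left a (pow_dvd_pow r (by omega))).trans hN
  have hdJ : ∀ i : Fin 3, r ^ (i : ℕ) ∣ N := fun i => (Dvd.intro_left a rfl).trans (hdJa i)
  have hJ : ∀ i : Fin 3, algebraMap (FE A N) (Base.LE A) (Val.jE A N (r ^ (i : ℕ)))
      = S28.jd (IE A) (r ^ (i : ℕ)) := fun i => Val.isJE_jE A N (hdJ i)
  have hJa : ∀ i : Fin 3, algebraMap (FE A N) (Base.LE A) (Val.jE A N (a * r ^ (i : ℕ)))
      = S28.jd (IE A) (a * r ^ (i : ℕ)) := fun i => Val.isJE_jE A N (hdJa i)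
  refine hAbs (AE A) (FE A N) (Base.LE A) (algebraMap (FE A N) (Base.LE A)) a r c T
    (fun i => Val.jE A N (r ^ (i : ℕ))) (fun i => Val.jE A N (a * r ^ (i : ℕ))) ha hr hra hunit hc
    ?_ ?_
  · intro i
    rw [hJ i, hJa i]
    exact Inst_rel_all (IE A) r ha (fun i => algebraMap (FE A N) (Base.LE A) (T i)) h0 h1 h2 i
  · intro i j hij
    rw [hJ i, hJ j, hJa i, hJa j]
    have e1 : r ^ (j : ℕ) = r * r ^ (i : ℕ) := by rw [← hij, pow_succ]; ring
    have e2 : a * r ^ (j : ℕ) = r * (a * r ^ (i : ℕ)) := by rw [e1]; ring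
    rw [e2, e1]
    obtain ⟨k1, k2⟩ := hrel (IE A) (r ^ (i : ℕ)) (pow_pos hr.pos _)
    obtain ⟨k3, k4⟩ := hrel (IE A) (a * r ^ (i : ℕ))
      (Nat.mul_pos (Nat.pos_of_ne_zero ha0) (pow_pos hr.pos _))
    exact ⟨k1, k2, k3, k4⟩

end Fermat.Agent.S36.Mut

end
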