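import Fermat.Agent.S36.Phi.Interface
import Fermat.Agent.S36.HM.Interface
import Fermat.Agent.S36.Val.Interface2

/-!
# S36 / Mut : `t_a(q)`, `t_a(q^r)`, `t_a(q^(r²))` are mutually integral over `A₀` (architect helper10)

Valuative criterion.  For a valuation ring `O ⊇ A₀` of `F` the *type* of `O` with respect to a
Hauptmodul `t` of level `a` (`∞` : `t ∉ O`; `0` : `t⁻¹ ∉ O`; other cusp; no cusp) is read off from the
pair `(v (j(q)), v (j(q^a)))` : `v Ja = v J ^ a`, `v J = v Ja ^ a`, `v J = v Ja`, resp. `v J ≤ 1`.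
The modular equation `Φ_r` replaces `v J` by `v J ^ r` or its `r`-th root; as `r ∤ a` the type of
`t(q^r)` is the type of `t(q)`.
-/

set_option autoImplicit false

noncomputable section

namespace Fermat.Agent.S36.Mut

open Fermat.Agent Fermat.Agent.S36
open Fermat.Agent.S24 (Qbar)
open Fermat.Agent.S36.Base
open ModularCurve (qExpand)

section Defs

variable {F : Type*} [Field F]

/-- the relations between the Hauptmodul of level `4`, `J = j(q)` and `Ja = j(q^4)`. -/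
def Rel4 (t J Ja : F) : Prop :=
  J * (t ^ 4 * (t + 16)) = (t ^ 2 + 256 * t + 4096) ^ 3 ∧
    Ja * (t * (t + 16)) = (t ^ 2 + 16 * t + 16) ^ 3

/-- the relations between the Hauptmodul of level `9`, `J = j(q)` and `Ja = j(q^9)`. -/
def Rel9 (t J Ja : F) : Prop :=
  J * (t ^ 9 * (t ^ 2 + 9 * t + 27)) = ((t + 9) * (t ^ 3 + 243 * t ^ 2 + 2187 * t + 6561)) ^ 3 ∧
    Ja * (t * (t ^ 2 + 9 * t + 27)) = ((t + 3) * (t ^ 3 + 9 * t ^ 2 + 27 * t + 3)) ^ 3

/-- the relations at level `a ∈ {4, 9}`. -/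
def Rel (a : ℕ) (t J Ja : F) : Prop := (a = 4 ∧ Rel4 t J Ja) ∨ (a = 9 ∧ Rel9 t J Ja)

/-- `Φ*(Z, W)` with integer coefficients. -/
def phiZ (r : ℕ) (c : ℕ → ℕ → ℤ) (Z W : F) : F :=
  ∑ a ∈ Finset.range (r + 2), ∑ b ∈ Finset.range (r + 2), ((c a b : ℤ) : F) * Z ^ a * W ^ b

/-- the conclusion of the type lemmas. -/
def TypeOut (a : ℕ) (O : ValuationSubring F) (t J Ja : F) : Prop :=
  (1 < O.valuation t → 1 < O.valuation J ∧ O.valuation Ja = O.valuation J ^ a) ∧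
  (O.valuation t < 1 → 1 < O.valuation Ja ∧ O.valuation J = O.valuation Ja ^ a) ∧
  (O.valuation t = 1 → (O.valuation J ≤ 1 ∧ O.valuation Ja ≤ 1) ∨
    (1 < O.valuation J ∧ O.valuation Ja = O.valuation J))

/-- `x` and `y` have a pole, resp. a zero, at the same valuation rings. -/
def SameType (O : ValuationSubring F) (x y : F) : Prop :=
  (1 < O.valuation x ↔ 1 < O.valuation y) ∧ (O.valuation x < 1 ↔ O.valuation y < 1)

/-- mutual integrality of `x`, `y` and of `x⁻¹`, `y⁻¹`. -/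
def MutInt (A₀ : Type*) [CommRing A₀] [Algebra A₀ F] (x y : F) : Prop :=
  IsIntegral (Algebra.adjoin A₀ {x}) y ∧ IsIntegral (Algebra.adjoin A₀ {y}) x ∧
    IsIntegral (Algebra.adjoin A₀ {x⁻¹}) y⁻¹ ∧ IsIntegral (Algebra.adjoin A₀ {y⁻¹}) x⁻¹

end Defs

/-- **MUT-CRIT** the valuative criterion of integrality. -/
def Stmt_Crit : Prop :=
  ∀ (A₀ F : Type) [CommRing A₀] [Field F] [Algebra A₀ F] (x y : F),
    (∀ O : ValuationSubring F, (∀ a : A₀, algebraMap A₀ F a ∈ O) → x ∈ O → y ∈ O) →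
    IsIntegral (Algebra.adjoin A₀ {x}) y

/-- **MUT-DICHV** the dichotomy of `Φ_r` for a valuation. -/
def Stmt_DichV : Prop :=
  ∀ (F : Type) [Field F] (O : ValuationSubring F) (r : ℕ) (c : ℕ → ℕ → ℤ) (Z W : F), 2 ≤ r →
    Reg.PhiShape r c → W ≠ 0 → O.valuation W < 1 → phiZ r c Z W = 0 →
    Z ≠ 0 ∧ O.valuation Z < 1 ∧
      (O.valuation Z = O.valuation W ^ r ∨ O.valuation W = O.valuation Z ^ r)

/-- **MUT-TYPE4**. -/
def Stmt_Type4 : Prop :=
  ∀ (F : Type) [Field F] (O : ValuationSubring F) (t J Ja : F), O.valuation (2 : F) = 1 →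
    Rel4 t J Ja → TypeOut 4 O t J Ja

/-- **MUT-TYPE9**. -/
def Stmt_Type9 : Prop :=
  ∀ (F : Type) [Field F] (O : ValuationSubring F) (t J Ja : F), O.valuation (3 : F) = 1 →
    Rel9 t J Ja → TypeOut 9 O t J Ja

/-- **MUT-V** the type of `t' = t(q^r)` is the type of `t = t(q)` (pure ordered group theory). -/
def Stmt_MutV : Prop :=
  ∀ (F : Type) [Field F] (O : ValuationSubring F) (a r : ℕ) (c : ℕ → ℕ → ℤ)
    (t J Ja t' J' Ja' : F), 2 ≤ a → r.Prime → ¬ r ∣ a → Reg.PhiShape r c →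
    TypeOut a O t J Ja → TypeOut a O t' J' Ja' →
    phiZ r c J'⁻¹ J⁻¹ = 0 → phiZ r c J⁻¹ J'⁻¹ = 0 →
    phiZ r c Ja'⁻¹ Ja⁻¹ = 0 → phiZ r c Ja⁻¹ Ja'⁻¹ = 0 → SameType O t t'

/-- **MUT-INT** from types to integrality. -/
def Stmt_MutInt : Prop :=
  ∀ (A₀ F : Type) [CommRing A₀] [Field F] [Algebra A₀ F] (x y : F), x ≠ 0 → y ≠ 0 →
    (∀ O : ValuationSubring F, (∀ a : A₀, algebraMap A₀ F a ∈ O) → SameType O x y) →
    MutInt A₀ x y

/-- **MUT-ABS** the abstract statement for three consecutive levels.  The relations are assumed in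
an overfield `L` (in the application the field of Laurent series). -/
def Stmt_MutAbs : Prop :=
  ∀ (A₀ F L : Type) [CommRing A₀] [Field F] [Algebra A₀ F] [Field L] (ι : F →+* L) (a r : ℕ)
    (c : ℕ → ℕ → ℤ) (T J Ja : Fin 3 → F), (a = 4 ∨ a = 9) → r.Prime → ¬ r ∣ a →
    IsUnit (a : A₀) → Reg.PhiShape r c → (∀ i, Rel a (ι (T i)) (ι (J i)) (ι (Ja i))) →
    (∀ i j : Fin 3, (i : ℕ) + 1 = j →
      phiZ r c (ι (J j))⁻¹ (ι (J i))⁻¹ = 0 ∧ phiZ r c (ι (J i))⁻¹ (ι (J j))⁻¹ = 0 ∧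
      phiZ r c (ι (Ja j))⁻¹ (ι (Ja i))⁻¹ = 0 ∧ phiZ r c (ι (Ja i))⁻¹ (ι (Ja j))⁻¹ = 0) →
    ∀ i j, MutInt A₀ (T i) (T j)

/-- **MUT** the concrete statement. -/
def Stmt_Mut : Prop :=
  ∀ (A : ValuationSubring Qbar) (a r N : ℕ) [NeZero N] [NeZero r], r.Prime → A.LiesOverPrime r →
    (a = 4 ∨ a = 9) → ¬ r ∣ a → a * r ^ 2 ∣ N → ∀ T : Fin 3 → FE A N,
    ((T 0 : FE A N) : Base.LE A) = HM.tq a (IE A) →
    ((T 1 : FE A N) : Base.LE A) = qExpand (IE A) r ((T 0 : FE A N) : Base.LE A) →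
    ((T 2 : FE A N) : Base.LE A) = qExpand (IE A) r ((T 1 : FE A N) : Base.LE A) →
    ∀ i j, MutInt (AE A) (T i) (T j)

end Fermat.Agent.S36.Mut

end
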