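import Fermat.Agent.S36.Mut.Interface
import Fermat.Agent.S36.Loc.Type4

/-!
# S36 / Mut, task MUT-TYPE4 : type of a valuation ring w.r.t. the level `4` Hauptmodul
(`Stmt_Type4`), from `Loc.T4_core`.
-/

set_option autoImplicit false

namespace Fermat.Agent.S36.Mut

/-- complement to `Loc.T4_core` : in the non cuspidal case `j(q^4)` is integral as well. -/
theorem Type4_Ja_le {F Γ₀ : Type*} [Field F] [LinearOrderedCommGroupWithZero Γ₀]
    (v : Valuation F Γ₀) (hnat : ∀ n : ℕ, v (n : F) ≤ 1) (τ J J' : F) (h2 : v (2 : F) = 1)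
    (hJ : J * (τ ^ 4 * (τ + 16)) = (τ ^ 2 + 256 * τ + 4096) ^ 3)
    (hJ' : J' * (τ * (τ + 16)) = (τ ^ 2 + 16 * τ + 16) ^ 3) (hτ : v τ = 1) (hJ1 : v J ≤ 1) :
    v J' ≤ 1 := by
  have h16 : v (16 : F) = 1 := by
    have : (16 : F) = 2 ^ 4 := by norm_num
    rw [this, map_pow, h2, one_pow]
  have h256 : v (256 : F) = 1 := by
    have : (256 : F) = 2 ^ 8 := by norm_num
    rw [this, map_pow, h2, one_pow]
  have h240 : v (240 : F) ≤ 1 := by
    have := hnat 240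
    simpa using this
  have eJ := congrArg v hJ
  have eJ' := congrArg v hJ'
  rw [map_mul, map_mul, map_pow, map_pow] at eJ
  rw [map_mul, map_mul, map_pow] at eJ'
  have hρ : v (τ + 16) ≤ 1 := v.map_add_le hτ.le h16.le
  rw [hτ, one_pow, one_mul] at eJ
  rw [hτ, one_mul] at eJ'
  rcases lt_or_eq_of_le hρ with hρ1 | hρ1
  · exfalso
    have e2 : v (τ ^ 2 + 256 * τ + 4096) = 1 := by
      have : τ ^ 2 + 256 * τ + 4096 = (τ + 16) * (τ + 240) + 256 := by ring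
      rw [this, Valuation.map_add_eq_of_lt_right v ?_, h256]
      rw [h256, map_mul]
      have h3 : v (τ + 240) ≤ 1 := v.map_add_le hτ.le h240
      exact mul_lt_one_of_lt_of_le hρ1 h3
    rw [e2, one_pow] at eJ
    have : v J * v (τ + 16) < 1 := by
      rw [mul_comm]
      exact mul_lt_one_of_lt_of_le hρ1 hJ1
    exact this.ne eJ
  · rw [hρ1, mul_one] at eJ'
    rw [eJ']
    apply pow_le_one₀ zero_le
    refine v.map_add_le (v.map_add_le ?_ ?_) h16.le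
    · rw [map_pow, hτ, one_pow]
    · rw [map_mul, h16, hτ, one_mul]

/-- **MUT-TYPE4**. -/
theorem type4 : Stmt_Type4 := by
  intro F _ O t J Ja h2 hrel
  obtain ⟨hJ, hJa⟩ := hrel
  have hnat : ∀ n : ℕ, O.valuation (n : F) ≤ 1 :=
    fun n => (O.valuation_le_one_iff _).2 (natCast_mem O n)
  have core := Loc.T4_core O.valuation hnat t J Ja h2 hJ hJa
  refine ⟨fun ht => ?_, fun ht => ?_, fun ht => ?_⟩
  · rcases core with ⟨-, h⟩ | ⟨h1, -, ⟨-, h⟩ | ⟨h, -⟩ | ⟨h, -⟩⟩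
    · exact absurd h ht.ne'
    · exact ⟨h1, h⟩
    · exact absurd h (not_lt.2 ht.le)
    · exact absurd h ht.ne'
  · rcases core with ⟨-, h⟩ | ⟨-, h1, ⟨h, -⟩ | ⟨-, h⟩ | ⟨h, -⟩⟩
    · exact absurd h ht.ne
    · exact absurd h (not_lt.2 ht.le)
    · exact ⟨h1, h⟩
    · exact absurd h ht.ne
  · rcases core with ⟨h, -⟩ | ⟨h1, -, ⟨h, -⟩ | ⟨h, -⟩ | ⟨-, h⟩⟩
    · exact Or.inl ⟨h, Type4_Ja_le O.valuation hnat t J Ja h2 hJ hJa ht h⟩
    · exact absurd ht h.ne'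
    · exact absurd ht h.ne
    · exact Or.inr ⟨h1, h.symm⟩

end Fermat.Agent.S36.Mut
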