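import Fermat.Agent.S36.Mut.Interface

/-!
# S36 / Mut / MUT-V : the type of `t(q^r)` is the type of `t(q)` (`Stmt_MutV`)
-/

set_option autoImplicit false

noncomputable section

namespace Fermat.Agent.S36.Mut

open Fermat.Agent Fermat.Agent.S36

/-- lemma K: ordered group arithmetic. -/
theorem V_lemmaK {Γ : Type*} [LinearOrderedCommGroupWithZero Γ] (a r : ℕ) (ha : 2 ≤ a)
    (hr : r.Prime) (hra : ¬ r ∣ a) (g gA g' gA' : Γ) (hg : 1 < g) (hgA : gA = g ^ a)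
    (h1 : g' = g ^ r ∨ g' ^ r = g) (h2 : gA' = gA ^ r ∨ gA' ^ r = gA) :
    ¬ (g' = gA' ^ a) ∧ ¬ (gA' = g') := by
  have hinj : ∀ m n : ℕ, g ^ m = g ^ n → m = n := fun m n h =>
    (pow_right_strictMono₀ hg).injective h
  have hr2 := hr.two_le
  have hrpos : 0 < r ^ 2 := by positivity
  have hG : g' ^ r = g ^ (r ^ 2) ∨ g' ^ r = g ^ 1 := by
    rcases h1 with h | h
    · left; rw [h, ← pow_mul, sq]
    · right; rw [h, pow_one]
  have hH : gA' ^ r = g ^ (a * r ^ 2) ∨ gA' ^ r = g ^ a := by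
    rcases h2 with h | h
    · left; rw [h, hgA, ← pow_mul, ← pow_mul, sq]
    · right; rw [h, hgA]
  constructor
  · intro h
    have e : g' ^ r = (gA' ^ r) ^ a := by rw [h, ← pow_mul, ← pow_mul, mul_comm]
    rcases hG with hG | hG <;> rcases hH with hH | hH <;> rw [hG, hH, ← pow_mul] at e <;>
      have e' := hinj _ _ e
    · have h4 : 2 * r ^ 2 * 2 ≤ a * r ^ 2 * a := Nat.mul_le_mul (Nat.mul_le_mul ha le_rfl) ha
      omega
    · apply hra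
      have h3 : r ∣ a * a := ⟨r, by rw [← e', sq]⟩
      exact (hr.dvd_mul.1 h3).elim id id
    · have h4 : 2 * r ^ 2 * 2 ≤ a * r ^ 2 * a := Nat.mul_le_mul (Nat.mul_le_mul ha le_rfl) ha
      omega
    · nlinarith
  · intro h
    have e : g' ^ r = gA' ^ r := by rw [h]
    rcases hG with hG | hG <;> rcases hH with hH | hH <;> rw [hG, hH] at e <;>
      have e' := hinj _ _ e
    · nlinarith
    · exact hra ⟨r, by rw [← e', sq]⟩
    · nlinarith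
    · omega

/-- lemma D: the dichotomy of `Φ_r` for `J`, `J'`. -/
theorem V_lemmaD (hD : Stmt_DichV) {F : Type} [Field F] (O : ValuationSubring F) (r : ℕ)
    (c : ℕ → ℕ → ℤ) (hr : 2 ≤ r) (hc : Reg.PhiShape r c) (J J' : F)
    (h : phiZ r c J'⁻¹ J⁻¹ = 0) (hJ : 1 < O.valuation J) :
    1 < O.valuation J' ∧
      (O.valuation J' = O.valuation J ^ r ∨ O.valuation J' ^ r = O.valuation J) := by
  have hJ0 : J ≠ 0 := by
    rintro rfl
    rw [map_zero] at hJ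
    exact absurd hJ (not_lt.2 zero_le_one)
  have hW : O.valuation J⁻¹ < 1 := by
    rw [map_inv₀]
    exact inv_lt_one_of_one_lt₀ hJ
  obtain ⟨hZ0, hZ1, hZ⟩ := hD F O r c J'⁻¹ J⁻¹ hr hc (inv_ne_zero hJ0) hW h
  have hJ'0 : J' ≠ 0 := fun h0 => hZ0 (by rw [h0, inv_zero])
  have hv0 : 0 < O.valuation J' := zero_lt_iff.2 ((Valuation.ne_zero_iff _).2 hJ'0)
  rw [map_inv₀] at hZ1
  rw [map_inv₀, map_inv₀, inv_pow, inv_pow, inv_inj, inv_inj] at hZ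
  exact ⟨(inv_lt_one₀ hv0).1 hZ1, hZ.imp id Eq.symm⟩

/-- one implication of `SameType`, pole case. -/
theorem V_pole {Γ : Type*} [LinearOrderedCommGroupWithZero Γ] (a r : ℕ) (ha : 2 ≤ a)
    (hr : r.Prime) (hra : ¬ r ∣ a) (g gA τ' g' gA' : Γ) (hg : 1 < g) (hgA : gA = g ^ a)
    (h0 : 1 < g') (h1 : g' = g ^ r ∨ g' ^ r = g) (h2 : gA' = gA ^ r ∨ gA' ^ r = gA)
    (T2 : τ' < 1 → 1 < gA' ∧ g' = gA' ^ a)
    (T3 : τ' = 1 → (g' ≤ 1 ∧ gA' ≤ 1) ∨ (1 < g' ∧ gA' = g')) : 1 < τ' := by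
  obtain ⟨k1, k2⟩ := V_lemmaK a r ha hr hra g gA g' gA' hg hgA h1 h2
  rcases lt_trichotomy τ' 1 with h | h | h
  · exact absurd (T2 h).2 k1
  · rcases T3 h with ⟨h3, -⟩ | ⟨-, h3⟩
    · exact absurd h0 (not_lt.2 h3)
    · exact absurd h3 k2
  · exact h

/-- one implication of `SameType`, zero case. -/
theorem V_zero {Γ : Type*} [LinearOrderedCommGroupWithZero Γ] (a r : ℕ) (ha : 2 ≤ a)
    (hr : r.Prime) (hra : ¬ r ∣ a) (g gA τ' g' gA' : Γ) (hgA : 1 < gA) (hg : g = gA ^ a)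
    (h0 : 1 < gA') (h1 : g' = g ^ r ∨ g' ^ r = g) (h2 : gA' = gA ^ r ∨ gA' ^ r = gA)
    (T1 : 1 < τ' → 1 < g' ∧ gA' = g' ^ a)
    (T3 : τ' = 1 → (g' ≤ 1 ∧ gA' ≤ 1) ∨ (1 < g' ∧ gA' = g')) : τ' < 1 := by
  obtain ⟨k1, k2⟩ := V_lemmaK a r ha hr hra gA g gA' g' hgA hg h2 h1
  rcases lt_trichotomy τ' 1 with h | h | h
  · exact h
  · rcases T3 h with ⟨-, h3⟩ | ⟨-, h3⟩
    · exact absurd h0 (not_lt.2 h3)
    · exact absurd h3.symm k2
  · exact absurd (T1 h).2 k1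

theorem mutV (hD : Stmt_DichV) : Stmt_MutV := by
  intro F _ O a r c t J Ja t' J' Ja' ha hr hra hc hT hT' p1 p2 p3 p4
  obtain ⟨T1, T2, T3⟩ := hT
  obtain ⟨T1', T2', T3'⟩ := hT'
  have ha0 : a ≠ 0 := by omega
  refine ⟨⟨fun h => ?_, fun h => ?_⟩, ⟨fun h => ?_, fun h => ?_⟩⟩
  · obtain ⟨hg, hgA⟩ := T1 h
    have hgA1 : 1 < O.valuation Ja := by rw [hgA]; exact one_lt_pow₀ hg ha0
    obtain ⟨d0, d1⟩ := V_lemmaD hD O r c hr.two_le hc J J' p1 hg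
    obtain ⟨-, d2⟩ := V_lemmaD hD O r c hr.two_le hc Ja Ja' p3 hgA1
    exact V_pole a r ha hr hra _ _ _ _ _ hg hgA d0 d1 d2 T2' T3'
  · obtain ⟨hg, hgA⟩ := T1' h
    have hgA1 : 1 < O.valuation Ja' := by rw [hgA]; exact one_lt_pow₀ hg ha0
    obtain ⟨d0, d1⟩ := V_lemmaD hD O r c hr.two_le hc J' J p2 hg
    obtain ⟨-, d2⟩ := V_lemmaD hD O r c hr.two_le hc Ja' Ja p4 hgA1
    exact V_pole a r ha hr hra _ _ _ _ _ hg hgA d0 d1 d2 T2 T3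
  · obtain ⟨hgA, hg⟩ := T2 h
    have hg1 : 1 < O.valuation J := by rw [hg]; exact one_lt_pow₀ hgA ha0
    obtain ⟨-, d1⟩ := V_lemmaD hD O r c hr.two_le hc J J' p1 hg1
    obtain ⟨d0, d2⟩ := V_lemmaD hD O r c hr.two_le hc Ja Ja' p3 hgA
    exact V_zero a r ha hr hra _ _ _ _ _ hgA hg d0 d1 d2 T1' T3'
  · obtain ⟨hgA, hg⟩ := T2' h
    have hg1 : 1 < O.valuation J' := by rw [hg]; exact one_lt_pow₀ hgA ha0
    obtain ⟨-, d1⟩ := V_lemmaD hD O r c hr.two_le hc J' J p2 hg1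
    obtain ⟨d0, d2⟩ := V_lemmaD hD O r c hr.two_le hc Ja' Ja p4 hgA
    exact V_zero a r ha hr hra _ _ _ _ _ hgA hg d0 d1 d2 T1 T3

end Fermat.Agent.S36.Mut

end
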